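import Mathlib

/-!
# Multiple zeta values

`mzv [s₁, …, s_d] = ∑_{n₁ > … > n_d > 0} ∏ᵢ nᵢ^(-sᵢ)`, computed in `ℝ≥0∞` by summing over the
largest variable first.
-/

set_option autoImplicit false

noncomputable section

namespace FA.MultipleZeta

open Finset
open scoped ENNReal

/-- `n^(-a)`, and `0` for `n = 0`. -/
def term (a n : ℕ) : ℝ≥0∞ := if n = 0 then 0 else ((n : ℝ≥0∞) ^ a)⁻¹

/-- The part of `mzv s` with largest variable `m`. -/
def level : List ℕ → ℕ → ℝ≥0∞
  | [], m => if m = 0 then 1 else 0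
  | a :: s, m => term a m * ∑ j ∈ Finset.range m, level s j

/-- The multiple zeta value. -/
def mzv (s : List ℕ) : ℝ≥0∞ := ∑' m, level s m

@[simp] theorem term_zero (a : ℕ) : term a 0 = 0 := by simp [term]

theorem term_of_ne_zero (a : ℕ) {n : ℕ} (hn : n ≠ 0) : term a n = ((n : ℝ≥0∞) ^ a)⁻¹ := by
  simp [term, hn]

theorem term_add (a b n : ℕ) : term (a + b) n = term a n * term b n := by
  rcases eq_or_ne n 0 with rfl | hn
  · simp
  · rw [term_of_ne_zero _ hn, term_of_ne_zero _ hn, term_of_ne_zero _ hn, pow_add,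
      ENNReal.mul_inv (Or.inl (pow_ne_zero _ (Nat.cast_ne_zero.2 hn)))
        (Or.inl (ENNReal.pow_ne_top (ENNReal.natCast_ne_top n)))]

theorem term_eq_ofReal (a : ℕ) (ha : a ≠ 0) (n : ℕ) :
    term a n = ENNReal.ofReal (1 / (n : ℝ) ^ a) := by
  rcases eq_or_ne n 0 with rfl | hn
  · simp [ha]
  · rw [term_of_ne_zero _ hn, one_div, ENNReal.ofReal_inv_of_pos (by positivity),
      ENNReal.ofReal_pow (Nat.cast_nonneg n), ENNReal.ofReal_natCast]

theorem term_le_term {a b : ℕ} (hab : b ≤ a) (n : ℕ) : term a n ≤ term b n := by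
  rcases eq_or_ne n 0 with rfl | hn
  · simp
  · rw [term_of_ne_zero _ hn, term_of_ne_zero _ hn, ENNReal.inv_le_inv]
    exact pow_le_pow_right₀ (by exact_mod_cast Nat.one_le_iff_ne_zero.2 hn) hab

@[simp] theorem level_nil (m : ℕ) : level [] m = if m = 0 then 1 else 0 := rfl

theorem level_cons (a : ℕ) (s : List ℕ) (m : ℕ) :
    level (a :: s) m = term a m * ∑ j ∈ range m, level s j := rfl

theorem level_zero {s : List ℕ} (hs : s ≠ []) : level s 0 = 0 := by
  obtain ⟨a, t, rfl⟩ := List.exists_cons_of_ne_nil hs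
  simp [level_cons]

theorem level_singleton (a m : ℕ) : level [a] m = term a m := by
  rcases eq_or_ne m 0 with rfl | hm
  · simp [level_cons]
  · simp [level_cons, sum_ite_eq', Nat.pos_of_ne_zero hm]

theorem mzv_singleton (a : ℕ) : mzv [a] = ∑' n, term a n := by
  simp [mzv, level_singleton]

theorem level_pair (a b m : ℕ) : level [a, b] m = term a m * ∑ n ∈ range m, term b n := by
  simp [level_cons a [b], level_singleton]

/-- The summand attached to a tuple. -/
def tupleTerm (s : List ℕ) (n : Fin s.length → ℕ) : ℝ≥0∞ :=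
  ∏ i, ((n i : ℝ≥0∞) ^ s.get i)⁻¹

open scoped Classical in
/-- Strictly decreasing tuples of positive integers below `M`. -/
def below (s : List ℕ) (M : ℕ) (n : Fin s.length → ℕ) : ℝ≥0∞ :=
  if StrictAnti n ∧ ∀ i, 0 < n i ∧ n i < M then tupleTerm s n else 0

theorem tsum_below (s : List ℕ) :
    ∀ M : ℕ, 0 < M → ∑' n : Fin s.length → ℕ, below s M n = ∑ j ∈ range M, level s j := by
  induction s with
  | nil =>
    intro M hM
    rw [tsum_eq_single (fun i => i.elim0) (fun b hb => absurd (funext fun i => i.elim0) hb)]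
    simp [below, tupleTerm, sum_ite_eq', hM, Subsingleton.strictAnti]
  | cons a s ih =>
    intro M _
    refine ((Fin.consEquiv fun _ : Fin (s.length + 1) => ℕ).tsum_eq
      (below (a :: s) M)).symm.trans ?_
    rw [ENNReal.tsum_prod']
    rw [tsum_eq_sum (s := range M) (fun m hm => ?_)]
    · refine sum_congr rfl fun m hm => ?_
      rw [level_cons]
      rcases eq_or_ne m 0 with rfl | hm0
      · rw [term_zero, zero_mul, ENNReal.tsum_eq_zero]
        intro n
        refine if_neg fun h => ?_
        have := (h.2 0).1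
        simp [Fin.consEquiv] at this
      · rw [← ih m (Nat.pos_of_ne_zero hm0), ← ENNReal.tsum_mul_left]
        refine tsum_congr fun n => ?_
        have hiff : (StrictAnti (Fin.cons m n : Fin (s.length + 1) → ℕ) ∧
            ∀ i, 0 < (Fin.cons m n : Fin (s.length + 1) → ℕ) i ∧
              (Fin.cons m n : Fin (s.length + 1) → ℕ) i < M) ↔
            StrictAnti n ∧ ∀ i, 0 < n i ∧ n i < m := by
          refine ⟨fun ⟨h1, h2⟩ => ⟨fun i j hij => ?_, fun i => ⟨?_, ?_⟩⟩, fun ⟨h1, h2⟩ => ⟨?_, ?_⟩⟩
          · simpa using h1 (Fin.succ_lt_succ_iff.2 hij)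
          · simpa using (h2 i.succ).1
          · simpa using h1 (Fin.succ_pos i)
          · intro i j hij
            cases j using Fin.cases with
            | zero => exact absurd hij (Fin.not_lt_zero i)
            | succ j =>
              cases i using Fin.cases with
              | zero => simpa using (h2 j).2
              | succ i => simpa using h1 (Fin.succ_lt_succ_iff.1 hij)
          · intro i
            cases i using Fin.cases with
            | zero => simpa using ⟨Nat.pos_of_ne_zero hm0, mem_range.1 hm⟩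
            | succ i => simpa using ⟨(h2 i).1, (h2 i).2.trans (mem_range.1 hm)⟩
        show below (a :: s) M (Fin.cons m n) = term a m * below s m n
        unfold below
        split_ifs with h1 h2 h2
        · rw [term_of_ne_zero a hm0]
          simp [tupleTerm, Fin.prod_univ_succ]
        · exact absurd (hiff.1 h1) h2
        · exact absurd (hiff.2 h2) h1
        · rw [mul_zero]
    · rw [ENNReal.tsum_eq_zero]
      intro n
      refine if_neg fun h => hm ?_
      have := (h.2 0).2
      simpa [Fin.consEquiv] using this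

/-- **The defining series**: the sum over strictly decreasing tuples of positive integers. -/
theorem mzv_eq_tsum_tuples (s : List ℕ) :
    mzv s = ∑' n : {n : Fin s.length → ℕ // StrictAnti n ∧ ∀ i, 0 < n i},
      ∏ i, ((n.1 i : ℝ≥0∞) ^ s.get i)⁻¹ := by
  rw [mzv, ENNReal.tsum_eq_iSup_nat' (Filter.tendsto_add_atTop_nat 1)]
  simp only [← tsum_below s _ (Nat.succ_pos _)]
  have hR : (∑' n : {n : Fin s.length → ℕ // StrictAnti n ∧ ∀ i, 0 < n i},
      ∏ i, ((n.1 i : ℝ≥0∞) ^ s.get i)⁻¹) =
      ∑' n : Fin s.length → ℕ, {n | StrictAnti n ∧ ∀ i, 0 < n i}.indicator (tupleTerm s) n :=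
    tsum_subtype {n : Fin s.length → ℕ | StrictAnti n ∧ ∀ i, 0 < n i} (tupleTerm s)
  rw [hR]
  refine le_antisymm (iSup_le fun M => ENNReal.tsum_le_tsum fun n => ?_) ?_
  · unfold below
    split_ifs with h
    · rw [Set.indicator_of_mem (show n ∈ {n | StrictAnti n ∧ ∀ i, 0 < n i} from
        ⟨h.1, fun i => (h.2 i).1⟩)]
    · exact bot_le
  · rw [ENNReal.tsum_eq_iSup_sum]
    refine iSup_le fun T => ?_
    refine le_iSup_of_le (∑ n ∈ T, ∑ i, n i) ((sum_le_sum fun n hn => ?_).trans
      (ENNReal.sum_le_tsum T))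
    by_cases h : n ∈ {n : Fin s.length → ℕ | StrictAnti n ∧ ∀ i, 0 < n i}
    · have hb : ∀ i, n i ≤ ∑ n ∈ T, ∑ i, n i := fun i =>
        le_trans (single_le_sum (fun j _ => Nat.zero_le (n j)) (mem_univ i))
          (single_le_sum (f := fun n : Fin s.length → ℕ => ∑ i, n i) (fun _ _ => Nat.zero_le _) hn)
      rw [Set.indicator_of_mem h, below, if_pos ⟨h.1, fun i => ⟨h.2 i, Nat.lt_succ_of_le (hb i)⟩⟩]
    · simp [Set.indicator_of_notMem h]

end FA.MultipleZeta

end
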