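import Fermat.Agent.MultipleZeta.Basic

/-!
# The duality theorem for multiple zeta values

The connected sum `∑ level k m · level l n · m! n! / (m + n)!` is unchanged when a letter is moved
from one side to the other, by a telescoping identity (Seki and Yamamoto).
-/

set_option autoImplicit false

noncomputable section

namespace FA.MultipleZeta

open Finset Filter Topology
open scoped ENNReal Nat

/-- The connector as a real number. -/
def connR (m n : ℕ) : ℝ := (m ! : ℝ) * n ! / (m + n)!

/-- The connector. -/
def conn (m n : ℕ) : ℝ≥0∞ := ENNReal.ofReal (connR m n)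

theorem connR_nonneg (m n : ℕ) : 0 ≤ connR m n := by
  unfold connR
  positivity

theorem connR_succ (m n : ℕ) : connR (m + 1) n * ((m + 1 + n : ℕ) : ℝ) =
    connR m n * (m + 1 : ℕ) := by
  unfold connR
  rw [show m + 1 + n = m + n + 1 by ring, Nat.factorial_succ, Nat.factorial_succ]
  push_cast
  field_simp

theorem conn_comm (m n : ℕ) : conn m n = conn n m := by
  rw [conn, conn, connR, connR, add_comm m n, mul_comm]

@[simp] theorem conn_zero_right (m : ℕ) : conn m 0 = 1 := by
  simp [conn, connR, div_self (Nat.cast_ne_zero.2 m.factorial_ne_zero : (m ! : ℝ) ≠ 0)]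

theorem connR_le {n : ℕ} (hn : n ≠ 0) : ∀ m : ℕ, connR m n ≤ 1 / ((m : ℝ) + 1) := by
  intro m
  induction m with
  | zero =>
    simp [connR, div_self (Nat.cast_ne_zero.2 n.factorial_ne_zero : (n ! : ℝ) ≠ 0)]
  | succ m ih =>
    have h := connR_succ m n
    have hn1 : (1 : ℝ) ≤ n := by exact_mod_cast Nat.one_le_iff_ne_zero.2 hn
    rw [le_div_iff₀ (by positivity)] at ih ⊢
    push_cast at h ⊢
    nlinarith [mul_le_mul_of_nonneg_left hn1 (connR_nonneg (m + 1) n)]

/-- The telescoping identity. -/
theorem tsum_conn {n : ℕ} (hn : n ≠ 0) (a : ℕ) :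
    ∑' m, (if a < m then term 1 m * conn m n else 0) = term 1 n * conn a n := by
  have hn0 : (n : ℝ) ≠ 0 := Nat.cast_ne_zero.2 hn
  have hs : HasSum (fun j : ℕ => connR (a + 1 + j) n / (a + 1 + j : ℕ)) (connR a n / n) := by
    refine (hasSum_iff_tendsto_nat_of_nonneg
      (fun j => div_nonneg (connR_nonneg _ _) (Nat.cast_nonneg _)) _).2 ?_
    have e : ∀ N, ∑ j ∈ range N, connR (a + 1 + j) n / (a + 1 + j : ℕ) =
        connR a n / n - connR (a + N) n / n := by
      intro N
      induction N with
      | zero => simp
      | succ N ih =>
        rw [sum_range_succ, ih, show a + 1 + N = a + N + 1 by ring,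
          show a + (N + 1) = a + N + 1 by ring]
        have h := connR_succ (a + N) n
        push_cast at h ⊢
        field_simp
        linear_combination h
    simp only [e]
    have h0 : Tendsto (fun N : ℕ => connR (a + N) n) atTop (𝓝 0) := by
      refine squeeze_zero (fun N => connR_nonneg _ _) (fun N => (connR_le hn (a + N)).trans ?_)
        tendsto_one_div_add_atTop_nhds_zero_nat
      push_cast
      exact one_div_le_one_div_of_le (by positivity) (by linarith [(a.cast_nonneg : (0 : ℝ) ≤ a)])
    simpa using (h0.div_const (n : ℝ)).const_sub (connR a n / n)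
  have hr : term 1 n * conn a n = ENNReal.ofReal (connR a n / n) := by
    rw [term_eq_ofReal 1 one_ne_zero, conn, ← ENNReal.ofReal_mul (by positivity), pow_one,
      div_eq_mul_one_div (connR a n), mul_comm]
  rw [hr, ← hs.tsum_eq, ENNReal.ofReal_tsum_of_nonneg
    (fun j => div_nonneg (connR_nonneg _ _) (Nat.cast_nonneg _)) hs.summable,
    ← ENNReal.summable.sum_add_tsum_nat_add' (k := a + 1)]
  rw [sum_eq_zero (fun i hi => if_neg (by simp at hi; omega)), zero_add]
  refine tsum_congr fun j => ?_
  rw [if_pos (by omega), term_eq_ofReal 1 one_ne_zero, conn, ← ENNReal.ofReal_mul (by positivity),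
    pow_one, add_comm j (a + 1), div_eq_mul_one_div (connR (a + 1 + j) n), mul_comm]

/-- The connected sum. -/
def connSum (k l : List ℕ) : ℝ≥0∞ := ∑' m, ∑' n, level k m * level l n * conn m n

theorem connSum_comm (k l : List ℕ) : connSum k l = connSum l k := by
  rw [connSum, connSum, ENNReal.tsum_comm]
  exact tsum_congr fun m => tsum_congr fun n => by rw [conn_comm, mul_comm (level k n)]

theorem connSum_nil_right (k : List ℕ) : connSum k [] = mzv k := by
  refine tsum_congr fun m => ?_
  rw [tsum_eq_single 0 (fun n hn => by simp [hn])]
  simp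

/-- Raise the first entry by one. -/
def bump : List ℕ → List ℕ
  | [] => []
  | a :: s => (a + 1) :: s

theorem bump_ne_nil {s : List ℕ} (hs : s ≠ []) : bump s ≠ [] := by
  obtain ⟨a, t, rfl⟩ := List.exists_cons_of_ne_nil hs
  simp [bump]

theorem level_bump {s : List ℕ} (hs : s ≠ []) (m : ℕ) :
    level (bump s) m = term 1 m * level s m := by
  obtain ⟨a, t, rfl⟩ := List.exists_cons_of_ne_nil hs
  rw [bump, level_cons, level_cons, add_comm a 1, term_add, mul_assoc]

/-- Moving one letter. -/
theorem connSum_one_cons (k : List ℕ) {l : List ℕ} (hl : l ≠ []) :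
    connSum (1 :: k) l = connSum k (bump l) := by
  calc connSum (1 :: k) l
      = ∑' n, level l n * ∑' m, ∑' a, level k a * (if a < m then term 1 m * conn m n else 0) := by
        rw [connSum, ENNReal.tsum_comm]
        refine tsum_congr fun n => ?_
        rw [← ENNReal.tsum_mul_left]
        refine tsum_congr fun m => ?_
        rw [tsum_eq_sum (s := range m) (fun a ha => by simp [show ¬ a < m from by simpa using ha]),
          level_cons, mul_sum, mul_sum, sum_mul, sum_mul]
        refine sum_congr rfl fun a ha => ?_
        rw [if_pos (mem_range.1 ha)]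
        ring
    _ = ∑' n, ∑' a, level k a * level (bump l) n * conn a n := by
        refine tsum_congr fun n => ?_
        rcases eq_or_ne n 0 with rfl | hn
        · simp [level_zero hl, level_zero (bump_ne_nil hl)]
        rw [ENNReal.tsum_comm, ← ENNReal.tsum_mul_left]
        refine tsum_congr fun a => ?_
        rw [ENNReal.tsum_mul_left, tsum_conn hn, level_bump hl]
        ring
    _ = connSum k (bump l) := ENNReal.tsum_comm

theorem connSum_bump {k : List ℕ} (hk : k ≠ []) (l : List ℕ) :
    connSum (bump k) l = connSum k (1 :: l) := by
  rw [connSum_comm k (1 :: l), connSum_one_cons l hk, connSum_comm]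

/-- The exponents of a word in `x = true`, `y = false`. -/
def index : List Bool → List ℕ
  | [] => []
  | false :: w => 1 :: index w
  | true :: w => bump (index w)

/-- Reverse a word and exchange the letters. -/
def dualWord (w : List Bool) : List Bool := (w.map not).reverse

theorem index_ne_nil {w : List Bool} (hw : false ∈ w) : index w ≠ [] := by
  induction w with
  | nil => simp at hw
  | cons b w ih =>
    cases b with
    | false => simp [index]
    | true =>
      simp only [index]
      exact bump_ne_nil (ih (by simpa using hw))

theorem transport : ∀ w v : List Bool, w.getLast? ≠ some true →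
    (index v ≠ [] ∨ w.head? ≠ some false) →
    connSum (index w) (index v) = connSum [] (index (dualWord w ++ v))
  | [], v, _, _ => by simp [index, dualWord]
  | true :: w, v, hlast, _ => by
    have hne : w ≠ [] := fun e => hlast (by simp [e])
    have hlast' : w.getLast? ≠ some true := by
      rwa [List.getLast?_cons_of_ne_nil hne] at hlast
    have hf : false ∈ w := by
      have h := List.getLast?_eq_getLast_of_ne_nil hne
      rw [h] at hlast'
      have : w.getLast hne = false := by simpa using hlast'
      exact this ▸ List.getLast_mem hne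
    rw [index, connSum_bump (index_ne_nil hf),
      show (1 :: index v) = index (false :: v) from rfl,
      transport w (false :: v) hlast' (Or.inl (by simp [index]))]
    simp [dualWord]
  | false :: w, v, hlast, hv => by
    have hvn : index v ≠ [] := hv.resolve_right (by simp)
    have hlast' : w.getLast? ≠ some true := by
      rcases eq_or_ne w [] with rfl | hne
      · simp
      · rwa [List.getLast?_cons_of_ne_nil hne] at hlast
    rw [index, connSum_one_cons _ hvn, show bump (index v) = index (true :: v) from rfl,
      transport w (true :: v) hlast' (Or.inl (bump_ne_nil hvn))]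
    simp [dualWord]

/-- **The duality theorem.** -/
theorem duality {w : List Bool} (h1 : w.head? = some true) (h2 : w.getLast? = some false) :
    mzv (index w) = mzv (index (dualWord w)) := by
  have := transport w [] (by simp [h2]) (Or.inr (by simp [h1]))
  rw [index, List.append_nil, connSum_nil_right, connSum_comm, connSum_nil_right] at this
  exact this

theorem index_replicate_false (b : ℕ) : index (List.replicate b false) = List.replicate b 1 := by
  induction b with
  | zero => rfl
  | succ b ih => simp [List.replicate_succ, index, ih]

theorem index_block (a b : ℕ) :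
    index (List.replicate (a + 1) true ++ List.replicate (b + 1) false) =
      (a + 2) :: List.replicate b 1 := by
  induction a with
  | zero => simp [List.replicate_succ, index, index_replicate_false, bump]
  | succ a ih =>
    rw [List.replicate_succ (n := a + 1), List.cons_append, index, ih]
    rfl

/-- `ζ(a + 2, 1^b) = ζ(b + 2, 1^a)`. -/
theorem duality_hook (a b : ℕ) :
    mzv ((a + 2) :: List.replicate b 1) = mzv ((b + 2) :: List.replicate a 1) := by
  rw [← index_block a b, ← index_block b a, duality (by simp [List.replicate_succ])
    (by simp [List.getLast?_append, List.getLast?_replicate])]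
  simp [dualWord]

theorem level_mono : ∀ (s : List ℕ), (∀ x ∈ s, 1 ≤ x) → ∀ m,
    level s m ≤ level (List.replicate s.length 1) m
  | [], _, _ => le_rfl
  | a :: s, h, m => by
    rw [List.length_cons, List.replicate_succ, level_cons, level_cons]
    exact mul_le_mul' (term_le_term (h a (by simp)) m)
      (sum_le_sum fun j _ => level_mono s (fun x hx => h x (by simp [hx])) j)

theorem mzv_singleton_ne_top {a : ℕ} (ha : 2 ≤ a) : mzv [a] ≠ ⊤ := by
  have hs : Summable fun n : ℕ => 1 / (n : ℝ) ^ a := Real.summable_one_div_nat_pow.2 (by omega)
  rw [mzv_singleton, show (fun n => term a n) = fun n : ℕ => ENNReal.ofReal (1 / (n : ℝ) ^ a) from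
    funext (term_eq_ofReal a (by omega)),
    ← ENNReal.ofReal_tsum_of_nonneg (fun n => by positivity) hs]
  exact ENNReal.ofReal_ne_top

/-- **Finiteness** for admissible exponents. -/
theorem mzv_ne_top {a : ℕ} {s : List ℕ} (ha : 2 ≤ a) (hs : ∀ x ∈ s, 1 ≤ x) :
    mzv (a :: s) ≠ ⊤ := by
  refine ne_top_of_le_ne_top (mzv_singleton_ne_top (a := s.length + 2) (by omega)) ?_
  rw [show [s.length + 2] = (s.length + 2) :: List.replicate 0 1 from rfl, duality_hook s.length 0]
  refine ENNReal.tsum_le_tsum fun m => ?_
  rw [level_cons, level_cons]
  exact mul_le_mul' (term_le_term ha m) (sum_le_sum fun j _ => level_mono s hs j)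

theorem mzv_pos {a : ℕ} {s : List ℕ} : 0 < mzv (a :: s) := by
  refine pos_iff_ne_zero.2 fun h => ?_
  have hall : ∀ (s : List ℕ), ∃ m, level s m ≠ 0 := by
    intro s
    induction s with
    | nil => exact ⟨0, by simp⟩
    | cons a s ih =>
      obtain ⟨m, hm⟩ := ih
      refine ⟨m + 1, mul_ne_zero (by simp [term_of_ne_zero]) fun h0 => hm ?_⟩
      exact (sum_eq_zero_iff.1 h0) m (self_mem_range_succ m)
  obtain ⟨m, hm⟩ := hall (a :: s)
  exact hm (ENNReal.tsum_eq_zero.1 h m)

end FA.MultipleZeta

end
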