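import Fermat.Agent.MultipleZeta.Duality

/-!
# Euler's sum formula

`∑_{a = 2}^{k-1} ζ(a, k - a) = ζ(k)` by partial fractions.
-/

set_option autoImplicit false

noncomputable section

namespace FA.MultipleZeta

open Finset
open scoped ENNReal

/-- The geometric partial fraction identity. -/
theorem partial_fractions {m n : ℕ} (hn : 0 < n) (hnm : n < m) : ∀ r : ℕ,
    (∑ i ∈ range r, 1 / ((m : ℝ) ^ (i + 2) * (n : ℝ) ^ (r - i))) +
        1 / (((m - n : ℕ) : ℝ) * (m : ℝ) ^ (r + 1)) =
      1 / (((m - n : ℕ) : ℝ) * m * (n : ℝ) ^ r) := by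
  have hm0 : (m : ℝ) ≠ 0 := Nat.cast_ne_zero.2 (by omega)
  have hn0 : (n : ℝ) ≠ 0 := Nat.cast_ne_zero.2 hn.ne'
  have hd0 : ((m - n : ℕ) : ℝ) ≠ 0 := Nat.cast_ne_zero.2 (by omega)
  have hd : ((m - n : ℕ) : ℝ) = m - n := Nat.cast_sub hnm.le
  intro r
  induction r with
  | zero => simp
  | succ r ih =>
    have hstep : (∑ i ∈ range (r + 1), 1 / ((m : ℝ) ^ (i + 2) * (n : ℝ) ^ (r + 1 - i))) =
        (∑ i ∈ range r, 1 / ((m : ℝ) ^ (i + 2) * (n : ℝ) ^ (r - i))) / n +
          1 / ((m : ℝ) ^ (r + 2) * n) := by
      rw [sum_range_succ, sum_div, Nat.add_sub_cancel_left, pow_one]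
      congr 1
      refine sum_congr rfl fun i hi => ?_
      rw [show r + 1 - i = r - i + 1 by simp at hi; omega]
      field_simp
      ring
    rw [hstep, eq_sub_of_add_eq ih]
    field_simp
    rw [hd]
    ring

theorem term_sum_eq {m n : ℕ} (hn : 0 < n) (hnm : n < m) {r : ℕ} (hr : r ≠ 0) :
    (∑ i ∈ range r, term (i + 2) m * term (r - i) n) + term 1 (m - n) * term (r + 1) m =
      term 1 (m - n) * term 1 m * term r n := by
  have hsum : (∑ i ∈ range r, term (i + 2) m * term (r - i) n) =
      ENNReal.ofReal (∑ i ∈ range r, 1 / ((m : ℝ) ^ (i + 2) * (n : ℝ) ^ (r - i))) := by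
    rw [ENNReal.ofReal_sum_of_nonneg (fun i _ => by positivity)]
    refine sum_congr rfl fun i hi => ?_
    rw [term_eq_ofReal _ (by omega), term_eq_ofReal _ (by simp at hi; omega),
      ← ENNReal.ofReal_mul (by positivity), one_div_mul_one_div]
  rw [hsum, term_eq_ofReal 1 one_ne_zero, term_eq_ofReal (r + 1) (by omega),
    term_eq_ofReal 1 one_ne_zero, term_eq_ofReal r hr, ← ENNReal.ofReal_mul (by positivity),
    ← ENNReal.ofReal_mul (by positivity), ← ENNReal.ofReal_mul (by positivity),
    ← ENNReal.ofReal_add (by positivity) (by positivity), pow_one, pow_one, one_div_mul_one_div,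
    one_div_mul_one_div, one_div_mul_one_div, partial_fractions hn hnm r]

/-- `∑_{j ≥ 1} 1/(j (j + n)) = H_n / n`. -/
theorem tsum_harmonic {n : ℕ} (hn : n ≠ 0) :
    ∑' j, term 1 j * term 1 (j + n) = term 1 n * ∑ i ∈ range (n + 1), term 1 i := by
  have hkey : ∀ i, ∑' j, term 1 (i + j + 1) * term 1 (i + j + 2) = term 1 (i + 1) := by
    intro i
    have h := tsum_conn one_ne_zero i
    rw [← ENNReal.summable.sum_add_tsum_nat_add' (k := i + 1),
      sum_eq_zero (fun x hx => if_neg (by simp at hx; omega)), zero_add] at h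
    have hc : ∀ m, conn m 1 = term 1 (m + 1) := fun m => by
      rw [conn, connR, term_eq_ofReal 1 one_ne_zero, Nat.factorial_succ]
      congr 1
      push_cast
      field_simp
      simp [Nat.factorial_succ]
      ring
    simp only [hc, show term 1 1 = 1 by simp [term], one_mul] at h
    rw [← h]
    refine tsum_congr fun j => ?_
    rw [if_pos (by omega), show j + (i + 1) = i + j + 1 by ring]
  have hpt : ∀ j, term 1 (j + 1) * term 1 (j + 1 + n) =
      term 1 n * ∑ i ∈ range n, term 1 (i + j + 1) * term 1 (i + j + 2) := by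
    intro j
    have hreal : ∑ i ∈ range n, 1 / (((i + j + 1 : ℕ) : ℝ) * ((i + j + 2 : ℕ) : ℝ)) =
        (n : ℝ) / (((j + 1 : ℕ) : ℝ) * ((j + 1 + n : ℕ) : ℝ)) := by
      clear hn
      induction n with
      | zero => simp
      | succ n ih =>
        rw [sum_range_succ, ih]
        push_cast
        field_simp
        ring
    simp only [term_eq_ofReal 1 one_ne_zero, pow_one]
    rw [sum_congr rfl (fun i _ => (ENNReal.ofReal_mul (by positivity)).symm),
      ← ENNReal.ofReal_sum_of_nonneg (fun i _ => by positivity),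
      ← ENNReal.ofReal_mul (by positivity), ← ENNReal.ofReal_mul (by positivity)]
    simp only [one_div_mul_one_div]
    rw [hreal]
    congr 1
    have : (n : ℝ) ≠ 0 := Nat.cast_ne_zero.2 hn
    field_simp
  rw [← ENNReal.summable.sum_add_tsum_nat_add' (k := 1), sum_range_one, term_zero, zero_mul,
    zero_add]
  simp only [hpt]
  rw [ENNReal.tsum_mul_left, Summable.tsum_finsetSum (fun i _ => ENNReal.summable),
    sum_congr rfl (fun i _ => hkey i), sum_range_succ' _ n, term_zero, add_zero]

/-- **Euler's sum formula.** -/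
theorem euler_sum {r : ℕ} (hr : r ≠ 0) :
    ∑ i ∈ range r, mzv [i + 2, r - i] = mzv [r + 2] := by
  have hfin : mzv [r + 1, 1] ≠ ⊤ := mzv_ne_top (by omega) (by simp)
  refine (ENNReal.add_left_inj hfin).1 ?_
  have hA : ∑ i ∈ range r, mzv [i + 2, r - i] =
      ∑' m, ∑ n ∈ range m, ∑ i ∈ range r, term (i + 2) m * term (r - i) n := by
    simp only [mzv, level_pair]
    rw [← Summable.tsum_finsetSum (fun i _ => ENNReal.summable)]
    refine tsum_congr fun m => ?_
    simp only [mul_sum]
    exact sum_comm
  have hB : mzv [r + 1, 1] = ∑' m, ∑ n ∈ range m,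
      (if n = 0 then 0 else term 1 (m - n) * term (r + 1) m) := by
    simp only [mzv, level_pair]
    refine tsum_congr fun m => ?_
    rw [mul_sum]
    cases m with
    | zero => simp
    | succ m =>
      rw [sum_range_succ', sum_range_succ' (fun n => if n = 0 then _ else _), if_pos rfl, term_zero,
        mul_zero, add_zero, add_zero, ← sum_range_reflect]
      refine sum_congr rfl fun i hi => ?_
      simp at hi
      rw [if_neg (by omega), mul_comm, show m - 1 - i + 1 = m + 1 - (i + 1) by omega]
  have hC : mzv [r + 2] + mzv [r + 1, 1] = ∑' n, term r n * ∑' j, term 1 j * term 1 (j + n) := by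
    rw [mzv_singleton, mzv, ← ENNReal.tsum_add]
    refine tsum_congr fun n => ?_
    rcases eq_or_ne n 0 with rfl | hn
    · simp [level_pair]
    rw [tsum_harmonic hn, sum_range_succ, level_pair, show r + 2 = r + 1 + 1 from rfl,
      term_add (r + 1), term_add r 1]
    ring
  rw [hA, hC, hB, ← ENNReal.tsum_add]
  calc ∑' m, ((∑ n ∈ range m, ∑ i ∈ range r, term (i + 2) m * term (r - i) n) +
        ∑ n ∈ range m, if n = 0 then 0 else term 1 (m - n) * term (r + 1) m)
      = ∑' m, ∑' n, (if n < m then term r n * (term 1 (m - n) * term 1 m) else 0) := by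
        refine tsum_congr fun m => ?_
        rw [← sum_add_distrib, tsum_eq_sum (s := range m) (fun n hn => if_neg (by simpa using hn))]
        refine sum_congr rfl fun n hn => ?_
        rw [if_pos (mem_range.1 hn)]
        rcases eq_or_ne n 0 with rfl | hn0
        · rw [if_pos rfl, term_zero, zero_mul, add_zero, sum_eq_zero (fun i _ => by simp)]
        · rw [if_neg hn0, term_sum_eq (Nat.pos_of_ne_zero hn0) (mem_range.1 hn) hr]
          ring
    _ = ∑' n, term r n * ∑' j, term 1 j * term 1 (j + n) := by
        rw [ENNReal.tsum_comm]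
        refine tsum_congr fun n => ?_
        rw [← ENNReal.tsum_mul_left, ← ENNReal.summable.sum_add_tsum_nat_add' (k := n),
          sum_eq_zero (fun x hx => if_neg (by simp at hx; omega)), zero_add]
        refine tsum_congr fun j => ?_
        rcases eq_or_ne j 0 with rfl | hj
        · simp
        · rw [if_pos (by omega), Nat.add_sub_cancel]

/-- `ζ(2, 1) = ζ(3)`. -/
theorem two_one : mzv [2, 1] = mzv [3] := by
  have := euler_sum (r := 1) one_ne_zero
  simpa using this

end FA.MultipleZeta

end
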