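import Fermat.Agent.MultipleZeta.Duality

/-!
# `ζ(2, …, 2) = π^(2n) / (2n + 1)!`

The generating series of these values is the product `∏ (1 + y / m²)`, equal to
`sinh (π √y) / (π √y)` by Euler's product for the sine.
-/

set_option autoImplicit false

noncomputable section

namespace FA.MultipleZeta

open Finset Filter Topology
open scoped ENNReal Real Nat

/-- Power series with nonnegative coefficients, finite at `1`, are determined by their values. -/
theorem coeff_unique : ∀ (n : ℕ) (a b : ℕ → ℝ≥0∞),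
    (∀ y : ℝ≥0∞, 0 < y → y ≤ 1 → ∑' j, a j * y ^ j = ∑' j, b j * y ^ j) → ∑' j, a j ≠ ⊤ →
      a n = b n := by
  have hfin : ∀ (a b : ℕ → ℝ≥0∞),
      (∀ y : ℝ≥0∞, 0 < y → y ≤ 1 → ∑' j, a j * y ^ j = ∑' j, b j * y ^ j) → ∑' j, a j ≠ ⊤ →
        ∑' j, b j ≠ ⊤ := fun a b h ha => by
    have := h 1 one_pos le_rfl
    simp only [one_pow, mul_one] at this
    exact this ▸ ha
  have hzero : ∀ (a b : ℕ → ℝ≥0∞),
      (∀ y : ℝ≥0∞, 0 < y → y ≤ 1 → ∑' j, a j * y ^ j = ∑' j, b j * y ^ j) → ∑' j, b j ≠ ⊤ →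
        a 0 ≤ b 0 := fun a b h hb => by
    have hlim : Tendsto (fun y : ℝ≥0∞ => b 0 + y * ∑' j, b j) (𝓝[>] 0) (𝓝 (b 0)) := by
      have := (ENNReal.Tendsto.mul_const (tendsto_id (α := ℝ≥0∞) (x := 𝓝 0)) (Or.inr hb)).const_add
        (b 0)
      simpa using this.mono_left nhdsWithin_le_nhds
    have : (𝓝[>] (0 : ℝ≥0∞)).NeBot := nhdsGT_neBot_of_exists_gt ⟨1, one_pos⟩
    refine ge_of_tendsto hlim ?_
    filter_upwards [Ioo_mem_nhdsGT one_pos] with y hy
    calc a 0 = a 0 * y ^ 0 := by simp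
      _ ≤ ∑' j, a j * y ^ j := ENNReal.le_tsum 0
      _ = ∑' j, b j * y ^ j := h y hy.1 hy.2.le
      _ ≤ b 0 + y * ∑' j, b j := by
        rw [ENNReal.tsum_eq_add_tsum_ite 0, pow_zero, mul_one, ← ENNReal.tsum_mul_left]
        refine add_le_add le_rfl (ENNReal.tsum_le_tsum fun j => ?_)
        split_ifs with hj
        · exact bot_le
        · rw [mul_comm y]
          exact mul_le_mul' le_rfl (pow_le_of_le_one bot_le hy.2.le hj)
  intro n
  induction n with
  | zero =>
    exact fun a b h ha => le_antisymm (hzero a b h (hfin a b h ha))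
      (hzero b a (fun y h1 h2 => (h y h1 h2).symm) ha)
  | succ n ih =>
    intro a b h ha
    have h0 : a 0 = b 0 := le_antisymm (hzero a b h (hfin a b h ha))
      (hzero b a (fun y h1 h2 => (h y h1 h2).symm) ha)
    refine ih (fun j => a (j + 1)) (fun j => b (j + 1)) (fun y hy hy1 => ?_)
      (ne_top_of_le_ne_top ha (ENNReal.tsum_comp_le_tsum_of_injective (add_left_injective 1) a))
    have h' := h y hy hy1
    rw [← ENNReal.summable.sum_add_tsum_nat_add' (f := fun j => a j * y ^ j) (k := 1),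
      ← ENNReal.summable.sum_add_tsum_nat_add' (f := fun j => b j * y ^ j) (k := 1)] at h'
    simp only [sum_range_one, pow_zero, mul_one, ← h0, pow_succ, ← mul_assoc,
      ENNReal.tsum_mul_right] at h'
    have ha0 : a 0 ≠ ⊤ := ne_top_of_le_ne_top ha (ENNReal.le_tsum 0)
    rw [ENNReal.add_right_inj ha0] at h'
    exact (ENNReal.mul_left_inj hy.ne' (ne_top_of_le_ne_top ENNReal.one_ne_top hy1)).1 h'

/-- The truncated values. -/
def twosBelow (j N : ℕ) : ℝ≥0∞ := ∑ m ∈ range N, level (List.replicate j 2) m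

theorem twosBelow_step (j N : ℕ) :
    twosBelow (j + 1) (N + 1) = twosBelow (j + 1) N + term 2 N * twosBelow j N := by
  rw [twosBelow, sum_range_succ]
  rfl

theorem twosBelow_zero {N : ℕ} (hN : N ≠ 0) : twosBelow 0 N = 1 := by
  simp [twosBelow, sum_ite_eq', Nat.pos_of_ne_zero hN]

/-- The generating product. -/
theorem prod_eq (y : ℝ≥0∞) : ∀ N : ℕ,
    ∏ m ∈ range (N + 1), (1 + y * term 2 m) = ∑' j, twosBelow j (N + 1) * y ^ j := by
  intro N
  induction N with
  | zero =>
    rw [tsum_eq_single 0 (fun j hj => ?_)]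
    · simp [twosBelow]
    · obtain ⟨i, rfl⟩ := Nat.exists_eq_succ_of_ne_zero hj
      simp [twosBelow, List.replicate_succ, level_cons]
  | succ N ih =>
    rw [prod_range_succ, ih, ← ENNReal.summable.sum_add_tsum_nat_add'
      (f := fun j => twosBelow j (N + 1 + 1) * y ^ j) (k := 1)]
    simp only [sum_range_one, twosBelow_step, add_mul, twosBelow_zero (Nat.succ_ne_zero _),
      pow_zero, one_mul]
    rw [ENNReal.tsum_add, ← add_assoc, mul_add, mul_one]
    congr 1
    · rw [← ENNReal.summable.sum_add_tsum_nat_add'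
        (f := fun j => twosBelow j (N + 1) * y ^ j) (k := 1)]
      simp [twosBelow_zero (Nat.succ_ne_zero _), twosBelow_step, add_mul]
    · rw [← ENNReal.tsum_mul_right]
      exact tsum_congr fun j => by rw [pow_succ]; ring

/-- Euler's product for the hyperbolic sine. -/
theorem tendsto_sinh_prod {t : ℝ} (ht : t ≠ 0) :
    Tendsto (fun N => ∏ j ∈ range N, (1 + t ^ 2 / ((j : ℝ) + 1) ^ 2)) atTop
      (𝓝 (Real.sinh (π * t) / (π * t))) := by
  have hπ : π * t ≠ 0 := mul_ne_zero Real.pi_ne_zero ht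
  have h := (Complex.continuous_im.tendsto _).comp
    (Complex.tendsto_euler_sin_prod ((t : ℂ) * Complex.I))
  rw [show (π : ℂ) * ((t : ℂ) * Complex.I) = ((π * t : ℝ) : ℂ) * Complex.I by push_cast; ring,
    Complex.sin_mul_I] at h
  have e : (Complex.sinh ((π * t : ℝ) : ℂ) * Complex.I).im = Real.sinh (π * t) := by
    rw [Complex.mul_I_im, Complex.sinh_ofReal_re]
  rw [e] at h
  refine (h.div_const (π * t)).congr fun N => ?_
  have hp : ∏ j ∈ range N, ((1 : ℂ) - ((t : ℂ) * Complex.I) ^ 2 / ((j : ℂ) + 1) ^ 2) =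
      ((∏ j ∈ range N, (1 + t ^ 2 / ((j : ℝ) + 1) ^ 2) : ℝ) : ℂ) := by
    push_cast
    refine prod_congr rfl fun j _ => ?_
    rw [mul_pow, Complex.I_sq]
    ring
  simp only [Function.comp_apply, hp]
  rw [mul_right_comm ((π * t : ℝ) : ℂ) Complex.I, ← Complex.ofReal_mul, Complex.im_ofReal_mul,
    Complex.I_im]
  field_simp

theorem generating_series {y : ℝ} (hy : 0 < y) :
    ∑' j, mzv (List.replicate j 2) * ENNReal.ofReal y ^ j =
      ∑' j, ENNReal.ofReal (π ^ (2 * j) / (2 * j + 1)!) * ENNReal.ofReal y ^ j := by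
  obtain ⟨t, ht0, rfl⟩ : ∃ t : ℝ, 0 < t ∧ t ^ 2 = y :=
    ⟨√y, Real.sqrt_pos.2 hy, Real.sq_sqrt hy.le⟩
  have h1 : Tendsto (fun N : ℕ => ∑' j, twosBelow j (N + 1) * ENNReal.ofReal (t ^ 2) ^ j) atTop
      (𝓝 (∑' j, mzv (List.replicate j 2) * ENNReal.ofReal (t ^ 2) ^ j)) := by
    simp only [mzv, ← ENNReal.tsum_mul_right, twosBelow, sum_mul]
    rw [ENNReal.tsum_comm]
    simp only [Summable.tsum_finsetSum (fun i _ => ENNReal.summable)]
    exact (ENNReal.tendsto_nat_tsum _).comp (tendsto_add_atTop_nat 1)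
  have h2 : Tendsto (fun N : ℕ => ∑' j, twosBelow j (N + 1) * ENNReal.ofReal (t ^ 2) ^ j) atTop
      (𝓝 (ENNReal.ofReal (Real.sinh (π * t) / (π * t)))) := by
    refine (ENNReal.tendsto_ofReal (tendsto_sinh_prod ht0.ne')).congr fun N => ?_
    rw [← prod_eq, prod_range_succ', term_zero, mul_zero, add_zero, mul_one,
      ENNReal.ofReal_prod_of_nonneg (fun j _ => by positivity)]
    refine prod_congr rfl fun j _ => ?_
    rw [term_eq_ofReal 2 two_ne_zero, ← ENNReal.ofReal_mul (sq_nonneg t),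
      ← ENNReal.ofReal_one, ← ENNReal.ofReal_add zero_le_one (by positivity)]
    congr 2
    push_cast
    ring
  rw [tendsto_nhds_unique h1 h2]
  have hs : HasSum (fun j : ℕ => π ^ (2 * j) / (2 * j + 1)! * (t ^ 2) ^ j)
      (Real.sinh (π * t) / (π * t)) := by
    refine ((Real.hasSum_sinh (π * t)).div_const (π * t)).congr_fun fun j => ?_
    have := Real.pi_ne_zero
    have := ht0.ne'
    field_simp
    ring
  rw [← hs.tsum_eq, ENNReal.ofReal_tsum_of_nonneg (fun j => by positivity) hs.summable]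
  exact tsum_congr fun j => by
    rw [ENNReal.ofReal_mul (by positivity), ENNReal.ofReal_pow (sq_nonneg t)]

/-- **`ζ(2, …, 2) = π^(2n) / (2n + 1)!`.** -/
theorem all_twos (n : ℕ) :
    mzv (List.replicate n 2) = ENNReal.ofReal (π ^ (2 * n) / (2 * n + 1)!) := by
  refine (coeff_unique n (fun j => ENNReal.ofReal (π ^ (2 * j) / (2 * j + 1)!))
    (fun j => mzv (List.replicate j 2)) (fun y hy hy1 => ?_) ?_).symm
  · have hyt : y ≠ ⊤ := ne_top_of_le_ne_top ENNReal.one_ne_top hy1
    rw [← ENNReal.ofReal_toReal hyt]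
    exact (generating_series (ENNReal.toReal_pos hy.ne' hyt)).symm
  · have hs : Summable fun j : ℕ => π ^ (2 * j) / (2 * j + 1)! := by
      refine Summable.of_nonneg_of_le (fun j => by positivity) (fun j => ?_)
        (Real.summable_pow_div_factorial (π ^ 2))
      rw [pow_mul]
      gcongr
      omega
    rw [← ENNReal.ofReal_tsum_of_nonneg (fun j => by positivity) hs]
    exact ENNReal.ofReal_ne_top

end FA.MultipleZeta

end
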